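import Fermat.Agent.H42.Cft.ChangeGenCore
import Fermat.Agent.H25.Recip.Interfaces

/-!
# P-CFT row 998 (RQ-GEN): `changeGen : Fermat.Agent.H25.Recip.ChangeGenStatement`
-/

set_option autoImplicit false

namespace Fermat.Agent.H42.Cft

/-- **[RQ-GEN]** change of generator for the standard cocycle of a cyclic group. -/
theorem changeGen : Fermat.Agent.H25.Recip.ChangeGenStatement :=
  fun _ _ _ _ _ _ hg k hg' _ ha => cgen_changeGen hg k hg' ha

end Fermat.Agent.H42.Cft
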