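import Fermat.Agent.H61.CFT.CyclicCocycle

/-!
# P-CFT row 998 (RQ-GEN): change of generator for the standard 2-cocycle of a cyclic group

`G = ⟨g⟩ = ⟨g'⟩` finite cyclic of order `n`, `g' = g ^ k`, `a` an invariant element.  With
`i_σ = dlog g σ`, `j_σ = dlog g' σ` one has `k j_σ = i_σ + n m_σ`, `m_σ = ⌊k j_σ / n⌋`, and
`stdCocycle g a / stdCocycle g' (a ^ k)` is the coboundary of `σ ↦ a ^ (- m_σ)`.
-/

set_option autoImplicit false

noncomputable section

namespace Fermat.Agent.H42.Cft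

open groupCohomology Fermat.Agent.H61.CFT

section

variable {G M : Type*} [Group G] [CommGroup M]

/-- Two generators have the same order. -/
theorem cgen_orderOf_eq {g g' : G} (hg : IsGen g) (hg' : IsGen g') : orderOf g' = orderOf g := by
  rw [orderOf_eq_card_of_forall_mem_zpowers hg.mem_zpowers,
    orderOf_eq_card_of_forall_mem_zpowers hg'.mem_zpowers]

/-- `k * dlog (g ^ k) σ = dlog g σ + n * ⌊k * dlog (g ^ k) σ / n⌋`. -/
theorem cgen_dlog_rel {g : G} (hg : IsGen g) (k : ℕ) (hg' : IsGen (g ^ k)) (σ : G) :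
    k * dlog (g ^ k) σ
      = dlog g σ + orderOf g * ((k * dlog (g ^ k) σ) / orderOf g) := by
  have h1 : g ^ (k * dlog (g ^ k) σ) = σ := by
    rw [pow_mul]
    exact hg'.pow_dlog σ
  have h2 : dlog g σ = (k * dlog (g ^ k) σ) % orderOf g := by
    conv_lhs => rw [← h1]
    exact dlog_pow' hg.1 _
  rw [h2]
  exact (Nat.mod_add_div _ _).symm

/-- The arithmetic identity `m_{στ} + k ε' = m_σ + m_τ + ε`. -/
theorem cgen_arith {g : G} (hg : IsGen g) (k : ℕ) (hg' : IsGen (g ^ k)) (σ τ : G) :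
    (k * dlog (g ^ k) (σ * τ)) / orderOf g
        + k * ((dlog (g ^ k) σ + dlog (g ^ k) τ) / orderOf (g ^ k))
      = (k * dlog (g ^ k) σ) / orderOf g + (k * dlog (g ^ k) τ) / orderOf g
        + (dlog g σ + dlog g τ) / orderOf g := by
  have hn : 0 < orderOf g := hg.1
  have hord : orderOf (g ^ k) = orderOf g := cgen_orderOf_eq hg hg'
  have h1 := cgen_dlog_rel hg k hg' σ
  have h2 := cgen_dlog_rel hg k hg' τ
  have h3 := cgen_dlog_rel hg k hg' (σ * τ)
  have h4 : dlog (g ^ k) σ + dlog (g ^ k) τ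
      = dlog (g ^ k) (σ * τ)
        + orderOf g * ((dlog (g ^ k) σ + dlog (g ^ k) τ) / orderOf (g ^ k)) := by
    rw [hg'.dlog_mul, hord]
    exact (Nat.mod_add_div _ _).symm
  have h5 : dlog g σ + dlog g τ
      = dlog g (σ * τ) + orderOf g * ((dlog g σ + dlog g τ) / orderOf g) := by
    rw [hg.dlog_mul]
    exact (Nat.mod_add_div _ _).symm
  set n := orderOf g
  set mσ := (k * dlog (g ^ k) σ) / n
  set mτ := (k * dlog (g ^ k) τ) / n
  set mστ := (k * dlog (g ^ k) (σ * τ)) / n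
  set ε' := (dlog (g ^ k) σ + dlog (g ^ k) τ) / orderOf (g ^ k)
  set ε := (dlog g σ + dlog g τ) / n
  set jσ := dlog (g ^ k) σ
  set jτ := dlog (g ^ k) τ
  set jστ := dlog (g ^ k) (σ * τ)
  set iσ := dlog g σ
  set iτ := dlog g τ
  set iστ := dlog g (σ * τ)
  apply Nat.eq_of_mul_eq_mul_left hn
  have h1' : (k : ℤ) * jσ = iσ + n * mσ := by exact_mod_cast h1
  have h2' : (k : ℤ) * jτ = iτ + n * mτ := by exact_mod_cast h2
  have h3' : (k : ℤ) * jστ = iστ + n * mστ := by exact_mod_cast h3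
  have h4' : (jσ : ℤ) + jτ = jστ + n * ε' := by exact_mod_cast h4
  have h5' : (iσ : ℤ) + iτ = iστ + n * ε := by exact_mod_cast h5
  have key : (n : ℤ) * (mστ + k * ε') = n * (mσ + mτ + ε) := by
    linear_combination h1' + h2' - h3' - (k : ℤ) * h4' + h5'
  exact_mod_cast key

theorem cgen_group_id (A B C D E : M) (h : C * E = A * B * D) :
    B⁻¹ / C⁻¹ * A⁻¹ = D / E := by
  have hD : D = C * E / (A * B) := by
    rw [h, mul_div_cancel_left]
  rw [hD]
  have h' : ∀ (a b c e : Additive M), -b - -c + -a = c + e - (a + b) - e := by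
    intros; abel
  exact h' (Additive.ofMul A) (Additive.ofMul B) (Additive.ofMul C) (Additive.ofMul E)

variable [MulDistribMulAction G M]

/-- **Change of generator**: `stdCocycle g a ~ stdCocycle (g ^ k) (a ^ k)` for an invariant
`a`. -/
theorem cgen_changeGen {g : G} (hg : IsGen g) (k : ℕ) (hg' : IsGen (g ^ k)) {a : M}
    (ha : g • a = a) :
    IsMulCoboundary₂ (fun x : G × G => stdCocycle g a x / stdCocycle (g ^ k) (a ^ k) x) := by
  refine ⟨fun σ => (a ^ ((k * dlog (g ^ k) σ) / orderOf g))⁻¹, fun σ τ => ?_⟩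
  have hinv : ∀ (m : ℕ), σ • (a ^ m)⁻¹ = (a ^ m)⁻¹ := by
    intro m
    rw [smul_inv', smul_pow', hg.smul_eq_of_smul_eq ha σ]
  show σ • (a ^ ((k * dlog (g ^ k) τ) / orderOf g))⁻¹
      / (a ^ ((k * dlog (g ^ k) (σ * τ)) / orderOf g))⁻¹
      * (a ^ ((k * dlog (g ^ k) σ) / orderOf g))⁻¹
    = stdCocycle g a (σ, τ) / stdCocycle (g ^ k) (a ^ k) (σ, τ)
  rw [hinv, stdCocycle_apply, stdCocycle_apply]
  apply cgen_group_id
  rw [← pow_mul, ← pow_add, ← pow_add, ← pow_add]
  congr 1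
  exact cgen_arith hg k hg' σ τ

end

end Fermat.Agent.H42.Cft

end
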